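import Mathlib

/-!
# S17 / tower H (helper50): Galois-stable cycles of points over `ℚ̄` — abstract Northcott

A *cycle* is a multiset `S` of affine points `y : ι → ℚ̄`.  If `S` is Galois stable then all
coordinate polynomials `∏_{y ∈ S} (X - y i)` have rational coefficients.  Hence:

* `northcott_of_coeff_bound` : if a "height" `hq` on `ℚ̄` has the Northcott property on `ℚ`
  and the coefficients of the coordinate polynomials of the cycles under consideration have
  bounded `hq`, then there are only finitely many such cycles of bounded degree.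

This is instantiated for the absolute height (`AbsNorthcott.lean`) and for the sum of local
heights w.r.t. fixed absolute values of `ℚ̄` (`LocCycle.lean`).
-/

set_option autoImplicit false
set_option linter.unusedSectionVars false

open Polynomial

noncomputable section

namespace Fermat.Agent.S17.H50

/-- `ℚ̄` -/
abbrev Qb : Type := AlgebraicClosure ℚ

/-- the absolute Galois group of `ℚ` -/
abbrev GQ : Type := Qb ≃ₐ[ℚ] Qb

instance qbIsAlgebraic : Algebra.IsAlgebraic ℚ Qb := AlgebraicClosure.isAlgebraic _

theorem isGalois_Qb : IsGalois ℚ Qb := by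
  have hcl : IsAlgClosure ℚ Qb := ⟨inferInstance, inferInstance⟩
  exact IsAlgClosure.isGalois ℚ Qb

/-- Galois-fixed algebraic numbers are rational -/
theorem exists_rat_of_fixed (α : Qb) (h : ∀ σ : GQ, σ α = α) :
    ∃ q : ℚ, algebraMap ℚ Qb q = α := by
  have := isGalois_Qb
  have := (InfiniteGalois.mem_bot_iff_fixed (k := ℚ) (K := Qb) α).2 h
  exact IntermediateField.mem_bot.1 this

/-! ### the monic polynomial with prescribed roots -/

/-- the monic polynomial with the given multiset of roots -/
def rootPoly {K : Type*} [Field K] (s : Multiset K) : K[X] := (s.map fun a => X - C a).prod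

section rootPoly

variable {K : Type*} [Field K]

theorem rootPoly_zero : rootPoly (0 : Multiset K) = 1 := by simp [rootPoly]

theorem rootPoly_cons (a : K) (s : Multiset K) :
    rootPoly (a ::ₘ s) = (X - C a) * rootPoly s := by
  simp [rootPoly]

theorem rootPoly_monic (s : Multiset K) : (rootPoly s).Monic :=
  monic_multiset_prod_of_monic _ _ fun a _ => monic_X_sub_C a

theorem rootPoly_natDegree (s : Multiset K) : (rootPoly s).natDegree = s.card := by
  simp [rootPoly]

theorem rootPoly_ne_zero (s : Multiset K) : rootPoly s ≠ 0 := (rootPoly_monic s).ne_zero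

theorem rootPoly_isRoot (s : Multiset K) (a : K) (ha : a ∈ s) : (rootPoly s).IsRoot a := by
  obtain ⟨t, rfl⟩ := Multiset.exists_cons_of_mem ha
  simp [rootPoly_cons]

theorem coeff_rootPoly_cons (a : K) (s : Multiset K) (k : ℕ) :
    (rootPoly (a ::ₘ s)).coeff k
      = (if k = 0 then 0 else (rootPoly s).coeff (k - 1)) - a * (rootPoly s).coeff k := by
  rw [rootPoly_cons]
  rcases k with _ | k
  · simp [sub_mul]
  · rw [sub_mul, coeff_sub, coeff_X_mul, coeff_C_mul]
    simp

theorem coeff_rootPoly_zero (k : ℕ) :
    (rootPoly (0 : Multiset K)).coeff k = if k = 0 then 1 else 0 := by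
  rw [rootPoly_zero, coeff_one]

theorem rootPoly_map {L : Type*} [Field L] (σ : K →+* L) (s : Multiset K) :
    (rootPoly s).map σ = rootPoly (s.map σ) := by
  simp [rootPoly, Polynomial.map_multiset_prod, Multiset.map_map]

end rootPoly

/-- the coefficients of `rootPoly s` are rational if `s` is Galois stable -/
theorem exists_rat_coeff_rootPoly (s : Multiset Qb) (hs : ∀ σ : GQ, s.map σ = s) (k : ℕ) :
    ∃ q : ℚ, algebraMap ℚ Qb q = (rootPoly s).coeff k := by
  apply exists_rat_of_fixed
  intro σ
  have h := congrArg (fun P => P.coeff k) (rootPoly_map (σ : Qb →+* Qb) s)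
  simp only [coeff_map] at h
  have hs' : s.map (σ : Qb →+* Qb) = s := hs σ
  rw [hs'] at h
  exact h

/-! ### cycles -/

/-- multisets of bounded cardinality in a finite set -/
theorem finite_multiset_card_le {α : Type*} (Y : Set α) (hY : Y.Finite) (d : ℕ) :
    {S : Multiset α | S.card ≤ d ∧ ∀ y ∈ S, y ∈ Y}.Finite := by
  classical
  have hfin : ((Multiset.powerset (d • hY.toFinset.val)).toFinset : Set (Multiset α)).Finite :=
    Finset.finite_toSet _
  refine hfin.subset ?_
  rintro S ⟨hcard, hmem⟩
  simp only [Finset.mem_coe, Multiset.mem_toFinset, Multiset.mem_powerset]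
  rw [Multiset.le_iff_count]
  intro a
  rw [Multiset.count_nsmul]
  by_cases ha : a ∈ S
  · have haY : a ∈ hY.toFinset := hY.mem_toFinset.2 (hmem a ha)
    have h1 : Multiset.count a hY.toFinset.val = 1 :=
      Multiset.count_eq_one_of_mem hY.toFinset.nodup haY
    rw [h1, mul_one]
    exact (Multiset.count_le_card a S).trans hcard
  · rw [Multiset.count_eq_zero_of_notMem ha]
    exact Nat.zero_le _

/-- the polynomial with given rational coefficients -/
def polyOf (d : ℕ) (f : Fin (d + 1) → ℚ) : Qb[X] :=
  ∑ k : Fin (d + 1), C (algebraMap ℚ Qb (f k)) * X ^ (k : ℕ)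

variable {ι : Type*} [Finite ι]

/-- a cycle is Galois stable -/
def IsGStable (S : Multiset (ι → Qb)) : Prop :=
  ∀ σ : GQ, S.map (fun y i => σ (y i)) = S

theorem IsGStable.coord {S : Multiset (ι → Qb)} (hS : IsGStable S) (i : ι) (σ : GQ) :
    (S.map fun y => y i).map σ = S.map fun y => y i := by
  conv_rhs => rw [← hS σ]
  simp [Multiset.map_map]

theorem IsGStable.add {S T : Multiset (ι → Qb)} (hS : IsGStable S) (hT : IsGStable T) :
    IsGStable (S + T) := fun σ => by
  rw [Multiset.map_add, hS σ, hT σ]

theorem isGStable_zero : IsGStable (0 : Multiset (ι → Qb)) := fun _ => rfl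

/-- the roots of the nonzero polynomials of degree `≤ d` with coefficients in a finite set of
rational numbers form a finite set -/
theorem finite_roots_of_coeff_mem (T : Set ℚ) (hT : T.Finite) (d : ℕ) :
    {a : Qb | ∃ P : Qb[X], P ≠ 0 ∧ P.natDegree ≤ d ∧
      (∀ k, ∃ q ∈ T, algebraMap ℚ Qb q = P.coeff k) ∧ P.IsRoot a}.Finite := by
  classical
  have hF : {f : Fin (d + 1) → ℚ | ∀ k, f k ∈ T}.Finite := by
    have := Set.Finite.pi (t := fun _ : Fin (d + 1) => T) (fun _ => hT)
    refine this.subset ?_
    intro f hf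
    rw [Set.mem_pi]
    intro k _
    exact hf k
  have hR : (⋃ f ∈ {f : Fin (d + 1) → ℚ | ∀ k, f k ∈ T},
      {a | polyOf d f ≠ 0 ∧ (polyOf d f).IsRoot a}).Finite := by
    refine hF.biUnion fun f _ => ?_
    by_cases h0 : polyOf d f = 0
    · simp [h0]
    · refine (Polynomial.finite_setOfPred_isRoot h0).subset ?_
      rintro a ⟨-, ha⟩
      exact ha
  refine hR.subset ?_
  rintro a ⟨P, hP0, hdeg, hcoef, hroot⟩
  choose q hqT hq using hcoef
  have hpoly : polyOf d (fun k => q k) = P := by
    have hdeg' : P.natDegree < d + 1 := by omega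
    conv_rhs => rw [Polynomial.as_sum_range' P (d + 1) hdeg']
    unfold polyOf
    rw [Fin.sum_univ_eq_sum_range (fun k => C (algebraMap ℚ Qb (q k)) * X ^ k) (d + 1)]
    refine Finset.sum_congr rfl fun k _ => ?_
    rw [hq k, ← Polynomial.C_mul_X_pow_eq_monomial]
  simp only [Set.mem_iUnion, Set.mem_ofPred_eq, exists_prop]
  refine ⟨fun k => q k, fun k => hqT k, ?_, ?_⟩
  · rw [hpoly]
    exact hP0
  · rw [hpoly]
    exact hroot

/-- **Abstract Northcott for Galois-stable cycles.**  Let `P` be a property of cycles, `hq` a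
function on `ℚ̄` with the Northcott property on `ℚ`, and assume that the coefficients of all
coordinate polynomials of the cycles with property `P` have `hq ≤ M`.  Then there are only
finitely many Galois-stable cycles of degree `≤ d` with property `P`. -/
theorem northcott_of_coeff_bound (hq : Qb → ℝ)
    (hfin : ∀ B : ℝ, {q : ℚ | hq (algebraMap ℚ Qb q) ≤ B}.Finite)
    (P : Multiset (ι → Qb) → Prop) (d : ℕ) (M : ℝ)
    (hbound : ∀ S : Multiset (ι → Qb), S.card ≤ d → IsGStable S → P S →
      ∀ (i : ι) (k : ℕ), hq ((rootPoly (S.map fun y => y i)).coeff k) ≤ M) :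
    {S : Multiset (ι → Qb) | S.card ≤ d ∧ IsGStable S ∧ P S}.Finite := by
  classical
  set T : Set ℚ := {q | hq (algebraMap ℚ Qb q) ≤ M} with hTdef
  have hT : T.Finite := hfin M
  have hR := finite_roots_of_coeff_mem T hT d
  set R : Set Qb := {a : Qb | ∃ P : Qb[X], P ≠ 0 ∧ P.natDegree ≤ d ∧
      (∀ k, ∃ q ∈ T, algebraMap ℚ Qb q = P.coeff k) ∧ P.IsRoot a} with hRdef
  set Y : Set (ι → Qb) := {y | ∀ i, y i ∈ R} with hYdef
  have hY : Y.Finite := by
    have := Set.Finite.pi (t := fun _ : ι => R) (fun _ => hR)
    refine this.subset ?_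
    intro y hy
    rw [Set.mem_pi]
    intro i _
    exact hy i
  refine (finite_multiset_card_le Y hY d).subset ?_
  rintro S ⟨hcard, hG, hP⟩
  refine ⟨hcard, fun y hy i => ?_⟩
  -- the coordinate polynomial
  set s : Multiset Qb := S.map fun y => y i with hs
  have hscard : s.card = S.card := Multiset.card_map _ _
  refine ⟨rootPoly s, rootPoly_ne_zero s, ?_, ?_, ?_⟩
  · rw [rootPoly_natDegree, hscard]
    exact hcard
  · intro k
    obtain ⟨q, hq'⟩ := exists_rat_coeff_rootPoly s (hG.coord i) k
    refine ⟨q, ?_, hq'⟩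
    simp only [hTdef, Set.mem_ofPred_eq]
    rw [hq']
    exact hbound S hcard hG hP i k
  · exact rootPoly_isRoot s (y i) (Multiset.mem_map.2 ⟨y, hy, rfl⟩)

end Fermat.Agent.S17.H50
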