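import Fermat.Agent.S17.H380.AbsBasic
import Fermat.Agent.S17.H50.CycleBase

/-!
# S17 / tower H, piece ABS (4) (helper50): Northcott for the absolute height

On top of the absolute logarithmic height `H380.absLogHeight` of tuples over `ℚ̄`:

* `ah x = absLogHeight ![x, 1]`, `ah_eq`, `ah_rat`, `ah_sub_le`, `ah_mul_le`;
* `absLogHeight_comp_le` : the height of a sub-tuple is at most the height of the tuple;
* `ah_le_absLogHeight` : `ah (y i) ≤ absLogHeight y` if some coordinate of `y` is `1`;
* `ah_coeff_rootPoly_le` : the coefficients of `∏ (X - a)` have height `≤ (2^n - 1)(log 2 + H)`;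
* `finite_rat_ah_le` : Northcott on `ℚ`;
* `northcott_cycle_abs` : **Northcott for Galois-stable cycles**: finitely many Galois-stable
  multisets `S` of points `y : ι → ℚ̄` (normalised by some coordinate `= 1`) with
  `card S ≤ d` and `∑_{y ∈ S} absLogHeight y ≤ B`;
* `northcott_alg_abs` : finitely many `α ∈ ℚ̄` of degree `≤ d` and `ah α ≤ B`;
* `northcott_point_abs` : finitely many normalised points with coordinates of degree `≤ d` and
  `absLogHeight ≤ B`.
-/

set_option autoImplicit false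
set_option linter.unusedSectionVars false
set_option linter.style.haveILetI false

open Polynomial Height NumberField Module IntermediateField
open Fermat.Agent.S17.H380

noncomputable section

namespace Fermat.Agent.S17.H50

section general

variable {A : Type*} [Field A] [CharZero A]

/-- the absolute logarithmic height of an algebraic number -/
def ah (x : A) : ℝ := absLogHeight ![x, 1]

theorem ah_nonneg (x : A) : 0 ≤ ah x := absLogHeight_nonneg _

/-- `ah` can be computed in any number field mapping to `A` -/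
theorem ah_eq {F : Type*} [Field F] [NumberField F] (σ : F →+* A) (y : F) :
    ah (σ y) = (finrank ℚ F : ℝ)⁻¹ * logHeight₁ y := by
  have h := absLogHeight_eq σ ![y, 1]
  rw [logHeight₁_eq_logHeight, ← h]
  unfold ah
  congr 1
  ext i
  fin_cases i <;> simp

theorem ah_rat (q : ℚ) : ah (algebraMap ℚ A q) = logHeight₁ q := by
  rw [ah_eq (algebraMap ℚ A) q]
  simp

theorem ah_zero : ah (0 : A) = 0 := by
  have := ah_rat (A := A) 0
  simpa using this

theorem ah_one : ah (1 : A) = 0 := by
  have := ah_rat (A := A) 1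
  simpa using this

/-- two algebraic numbers lie in a common number field -/
theorem exists_numberField_pair (x y : A) (hx : IsIntegral ℚ x) (hy : IsIntegral ℚ y) :
    ∃ F : IntermediateField ℚ A, NumberField F ∧ x ∈ F ∧ y ∈ F := by
  refine ⟨tupleField ![x, y], tupleField_numberField _ ?_, ?_, ?_⟩
  · intro i
    fin_cases i
    · simpa using hx
    · simpa using hy
  · exact subset_adjoin ℚ _ ⟨0, rfl⟩
  · exact subset_adjoin ℚ _ ⟨1, rfl⟩

theorem ah_mul_le (x y : A) (hx : IsIntegral ℚ x) (hy : IsIntegral ℚ y) :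
    ah (x * y) ≤ ah x + ah y := by
  obtain ⟨F, hF, hxF, hyF⟩ := exists_numberField_pair x y hx hy
  haveI := hF
  have h1 := ah_eq (algebraMap F A) (⟨x, hxF⟩ : F)
  have h2 := ah_eq (algebraMap F A) (⟨y, hyF⟩ : F)
  have h3 := ah_eq (algebraMap F A) ((⟨x, hxF⟩ : F) * ⟨y, hyF⟩)
  rw [map_mul] at h3
  change ah x = _ at h1
  change ah y = _ at h2
  change ah (x * y) = _ at h3
  rw [h1, h2, h3, ← mul_add]
  have hpos : (0 : ℝ) ≤ (finrank ℚ F : ℝ)⁻¹ := by positivity
  exact mul_le_mul_of_nonneg_left (logHeight₁_mul_le _ _) hpos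

theorem ah_sub_le (x y : A) (hx : IsIntegral ℚ x) (hy : IsIntegral ℚ y) :
    ah (x - y) ≤ Real.log 2 + ah x + ah y := by
  obtain ⟨F, hF, hxF, hyF⟩ := exists_numberField_pair x y hx hy
  haveI := hF
  have h1 := ah_eq (algebraMap F A) (⟨x, hxF⟩ : F)
  have h2 := ah_eq (algebraMap F A) (⟨y, hyF⟩ : F)
  have h3 := ah_eq (algebraMap F A) ((⟨x, hxF⟩ : F) - ⟨y, hyF⟩)
  rw [map_sub] at h3
  change ah x = _ at h1
  change ah y = _ at h2
  change ah (x - y) = _ at h3
  rw [h1, h2, h3]
  have hF0 : (0 : ℝ) < finrank ℚ F := by exact_mod_cast Module.finrank_pos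
  have h4 := logHeight₁_sub_le (⟨x, hxF⟩ : F) ⟨y, hyF⟩
  rw [totalWeight_eq_finrank] at h4
  have hpos : (0 : ℝ) ≤ (finrank ℚ F : ℝ)⁻¹ := by positivity
  have h5 := mul_le_mul_of_nonneg_left h4 hpos
  have h6 : (finrank ℚ F : ℝ)⁻¹ * ((finrank ℚ F : ℝ) * Real.log 2
      + logHeight₁ (⟨x, hxF⟩ : F) + logHeight₁ (⟨y, hyF⟩ : F))
      = Real.log 2 + (finrank ℚ F : ℝ)⁻¹ * logHeight₁ (⟨x, hxF⟩ : F)
        + (finrank ℚ F : ℝ)⁻¹ * logHeight₁ (⟨y, hyF⟩ : F) := by
    field_simp
  rw [h6] at h5
  exact h5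

variable {ι ι' : Type*} [Finite ι] [Finite ι']

/-- the absolute height of a sub-tuple is at most the absolute height of the tuple -/
theorem absLogHeight_comp_le (f : ι' → ι) (x : ι → A) (hx : ∀ i, IsIntegral ℚ (x i)) :
    absLogHeight (x ∘ f) ≤ absLogHeight x := by
  haveI := tupleField_numberField x hx
  rw [absLogHeight_def x hx]
  have h := absLogHeight_eq (algebraMap (tupleField x) A) (tupleLift x ∘ f)
  have h' : (fun i => algebraMap (tupleField x) A ((tupleLift x ∘ f) i)) = x ∘ f := by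
    funext i
    rfl
  rw [h'] at h
  rw [h]
  have hpos : (0 : ℝ) ≤ (finrank ℚ (tupleField x) : ℝ)⁻¹ := by positivity
  exact mul_le_mul_of_nonneg_left (logHeight_comp_le f (tupleLift x)) hpos

/-- the height of a coordinate of a normalised point is at most the height of the point -/
theorem ah_le_absLogHeight (y : ι → A) (hy : ∀ i, IsIntegral ℚ (y i)) (i₀ : ι) (h1 : y i₀ = 1)
    (i : ι) : ah (y i) ≤ absLogHeight y := by
  have h := absLogHeight_comp_le ![i, i₀] y hy
  have h' : y ∘ ![i, i₀] = ![y i, 1] := by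
    funext j
    fin_cases j
    · rfl
    · simpa using h1
  rw [h'] at h
  exact h

/-- **Heights of the coefficients of a polynomial in terms of the heights of its roots**
(crude bound, sufficient for Northcott). -/
theorem ah_coeff_rootPoly_le (s : Multiset A) (hs : ∀ a ∈ s, IsIntegral ℚ a) (H : ℝ)
    (hH : ∀ a ∈ s, ah a ≤ H) (k : ℕ) :
    IsIntegral ℚ ((rootPoly s).coeff k) ∧
      ah ((rootPoly s).coeff k) ≤ (2 ^ s.card - 1) * (Real.log 2 + H) := by
  induction s using Multiset.induction_on generalizing k with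
  | empty =>
    rw [coeff_rootPoly_zero]
    split_ifs
    · exact ⟨isIntegral_one, by simp [ah_one]⟩
    · exact ⟨isIntegral_zero, by simp [ah_zero]⟩
  | cons a s ih =>
    have hs' : ∀ b ∈ s, IsIntegral ℚ b := fun b hb => hs b (Multiset.mem_cons_of_mem hb)
    have hH' : ∀ b ∈ s, ah b ≤ H := fun b hb => hH b (Multiset.mem_cons_of_mem hb)
    have ha : IsIntegral ℚ a := hs a (Multiset.mem_cons_self a s)
    have haH : ah a ≤ H := hH a (Multiset.mem_cons_self a s)
    have hH0 : 0 ≤ H := (ah_nonneg a).trans haH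
    have hlog : 0 ≤ Real.log 2 := Real.log_nonneg (by norm_num)
    have hM0 : (0 : ℝ) ≤ (2 ^ s.card - 1) * (Real.log 2 + H) := by
      refine mul_nonneg ?_ (by linarith)
      have : (1 : ℝ) ≤ 2 ^ s.card := one_le_pow₀ (by norm_num)
      linarith
    rw [coeff_rootPoly_cons, Multiset.card_cons]
    obtain ⟨hi2, hb2⟩ := ih hs' hH' k
    have hu : IsIntegral ℚ (if k = 0 then (0 : A) else (rootPoly s).coeff (k - 1)) ∧
        ah (if k = 0 then (0 : A) else (rootPoly s).coeff (k - 1))
          ≤ (2 ^ s.card - 1) * (Real.log 2 + H) := by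
      split_ifs
      · exact ⟨isIntegral_zero, by rw [ah_zero]; exact hM0⟩
      · exact ih hs' hH' (k - 1)
    obtain ⟨hi1, hb1⟩ := hu
    have hiw : IsIntegral ℚ (a * (rootPoly s).coeff k) := ha.mul hi2
    refine ⟨hi1.sub hiw, ?_⟩
    have h1 := ah_sub_le _ _ hi1 hiw
    have h2 := ah_mul_le _ _ ha hi2
    have h3 : ((2 : ℝ) ^ (s.card + 1) - 1) * (Real.log 2 + H)
        = Real.log 2 + H + 2 * ((2 ^ s.card - 1) * (Real.log 2 + H)) := by ring
    rw [h3]
    linarith

end general

/-! ### Northcott -/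

theorem isIntegral_Qb (x : Qb) : IsIntegral ℚ x :=
  (Algebra.IsAlgebraic.isAlgebraic (R := ℚ) x).isIntegral

/-- **Northcott on `ℚ`** for the absolute height. -/
theorem finite_rat_ah_le (B : ℝ) : {q : ℚ | ah (algebraMap ℚ Qb q) ≤ B}.Finite := by
  have h := finite_setOfPred_logHeight₁_le ℚ B
  refine h.subset ?_
  intro q hq
  simp only [Set.mem_ofPred_eq] at hq ⊢
  rw [ah_rat] at hq
  exact hq

variable {ι : Type*} [Finite ι]

/-- the naive height of a cycle w.r.t. the absolute height -/
def cycAbs (S : Multiset (ι → Qb)) : ℝ := (S.map fun y => absLogHeight y).sum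

theorem cycAbs_nonneg (S : Multiset (ι → Qb)) : 0 ≤ cycAbs S :=
  Multiset.sum_nonneg (by
    intro x hx
    obtain ⟨y, -, rfl⟩ := Multiset.mem_map.1 hx
    exact absLogHeight_nonneg y)

theorem absLogHeight_le_cycAbs (S : Multiset (ι → Qb)) (y : ι → Qb) (hy : y ∈ S) :
    absLogHeight y ≤ cycAbs S := by
  obtain ⟨T, rfl⟩ := Multiset.exists_cons_of_mem hy
  unfold cycAbs
  rw [Multiset.map_cons, Multiset.sum_cons]
  have := cycAbs_nonneg T
  unfold cycAbs at this
  linarith

theorem cycAbs_add (S T : Multiset (ι → Qb)) : cycAbs (S + T) = cycAbs S + cycAbs T := by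
  simp [cycAbs]

/-- **Northcott for Galois-stable cycles** (absolute height): there are only finitely many
Galois-stable multisets `S` of normalised points of `ℚ̄^ι` with `card S ≤ d` and
`∑_{y ∈ S} absLogHeight y ≤ B`. -/
theorem northcott_cycle_abs (d : ℕ) (B : ℝ) :
    {S : Multiset (ι → Qb) | S.card ≤ d ∧ IsGStable S ∧
      ((∀ y ∈ S, ∃ i, y i = 1) ∧ cycAbs S ≤ B)}.Finite := by
  refine northcott_of_coeff_bound ah finite_rat_ah_le
    (fun S => (∀ y ∈ S, ∃ i, y i = 1) ∧ cycAbs S ≤ B) d
    ((2 ^ d - 1) * (Real.log 2 + max B 0)) ?_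
  rintro S hcard - ⟨hnorm, hB⟩ i k
  have hH : ∀ a ∈ S.map (fun y => y i), ah a ≤ max B 0 := by
    intro a ha
    obtain ⟨y, hy, rfl⟩ := Multiset.mem_map.1 ha
    obtain ⟨i₀, hi₀⟩ := hnorm y hy
    calc ah (y i) ≤ absLogHeight y := ah_le_absLogHeight y (fun j => isIntegral_Qb _) i₀ hi₀ i
      _ ≤ cycAbs S := absLogHeight_le_cycAbs S y hy
      _ ≤ B := hB
      _ ≤ max B 0 := le_max_left _ _
  obtain ⟨-, h⟩ := ah_coeff_rootPoly_le (S.map fun y => y i) (fun a _ => isIntegral_Qb a)
    (max B 0) hH k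
  refine h.trans ?_
  rw [Multiset.card_map]
  have hlog : 0 ≤ Real.log 2 := Real.log_nonneg (by norm_num)
  have h0 : 0 ≤ Real.log 2 + max B 0 := add_nonneg hlog (le_max_right _ _)
  refine mul_le_mul_of_nonneg_right ?_ h0
  have : (2 : ℝ) ^ S.card ≤ 2 ^ d := pow_le_pow_right₀ (by norm_num) hcard
  linarith

/-- Galois conjugates have the same height -/
theorem ah_galois (σ : GQ) (x : Qb) : ah (σ x) = ah x := by
  unfold ah
  have h := absLogHeight_ringHom (σ : Qb →+* Qb) ![x, 1]
  rw [← h]
  congr 1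
  ext i
  fin_cases i <;> simp

/-- **Northcott for algebraic numbers of bounded degree.** -/
theorem northcott_alg_abs (d : ℕ) (B : ℝ) :
    {α : Qb | (minpoly ℚ α).natDegree ≤ d ∧ ah α ≤ B}.Finite := by
  classical
  set M : ℝ := (2 ^ d - 1) * (Real.log 2 + max B 0) with hM
  set T : Set ℚ := {q | ah (algebraMap ℚ Qb q) ≤ M} with hTdef
  have hT : T.Finite := finite_rat_ah_le M
  refine (finite_roots_of_coeff_mem T hT d).subset ?_
  rintro α ⟨hdeg, hB⟩
  have hα : IsIntegral ℚ α := isIntegral_Qb α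
  set p : ℚ[X] := minpoly ℚ α with hp
  set P : Qb[X] := p.map (algebraMap ℚ Qb) with hP
  have hPmonic : P.Monic := (minpoly.monic hα).map _
  have hsplit : P.Splits := IsAlgClosed.splits P
  have hPeq : P = rootPoly P.roots := by
    have := hsplit.eq_prod_roots_of_monic hPmonic
    exact this
  have hPdeg : P.natDegree = p.natDegree := Polynomial.natDegree_map _
  have hcard : P.roots.card ≤ d := by
    have h1 : P.roots.card = P.natDegree := by
      have := congrArg Polynomial.natDegree hPeq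
      rw [rootPoly_natDegree] at this
      exact this.symm
    rw [h1, hPdeg]
    exact hdeg
  have hnormal : Normal ℚ Qb := by
    have := isGalois_Qb
    infer_instance
  have hH : ∀ a ∈ P.roots, ah a ≤ max B 0 := by
    intro a ha
    have hroot : Polynomial.aeval a (minpoly ℚ α) = 0 := by
      have h1 := (Polynomial.mem_roots hPmonic.ne_zero).1 ha
      rw [Polynomial.IsRoot.def, hP, Polynomial.eval_map_algebraMap] at h1
      exact h1
    obtain ⟨σ, hσ⟩ := minpoly.exists_algEquiv_of_root' (K := ℚ) (L := Qb)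
      (Algebra.IsAlgebraic.isAlgebraic α) hroot
    rw [← hσ, ah_galois]
    exact hB.trans (le_max_left _ _)
  refine ⟨P, hPmonic.ne_zero, by rw [hPdeg]; exact hdeg, ?_, ?_⟩
  · intro k
    refine ⟨p.coeff k, ?_, by rw [hP, Polynomial.coeff_map]⟩
    simp only [hTdef, Set.mem_ofPred_eq]
    have hcoef : algebraMap ℚ Qb (p.coeff k) = (rootPoly P.roots).coeff k := by
      rw [← hPeq, hP, Polynomial.coeff_map]
    rw [hcoef]
    obtain ⟨-, h⟩ := ah_coeff_rootPoly_le P.roots (fun a _ => isIntegral_Qb a) (max B 0) hH k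
    refine h.trans ?_
    have hlog : 0 ≤ Real.log 2 := Real.log_nonneg (by norm_num)
    have h0 : 0 ≤ Real.log 2 + max B 0 := add_nonneg hlog (le_max_right _ _)
    refine mul_le_mul_of_nonneg_right ?_ h0
    have : (2 : ℝ) ^ P.roots.card ≤ 2 ^ d := pow_le_pow_right₀ (by norm_num) hcard
    linarith
  · rw [Polynomial.IsRoot.def, hP, Polynomial.eval_map_algebraMap]
    exact minpoly.aeval ℚ α

/-- **Northcott for points of bounded degree**: finitely many normalised points of `ℚ̄^ι` with
coordinates of degree `≤ d` and absolute height `≤ B`. -/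
theorem northcott_point_abs (d : ℕ) (B : ℝ) :
    {y : ι → Qb | (∃ i, y i = 1) ∧ (∀ i, (minpoly ℚ (y i)).natDegree ≤ d) ∧
      absLogHeight y ≤ B}.Finite := by
  have h := Set.Finite.pi (t := fun _ : ι => {α : Qb | (minpoly ℚ α).natDegree ≤ d ∧ ah α ≤ B})
    (fun _ => northcott_alg_abs d B)
  refine h.subset ?_
  rintro y ⟨⟨i₀, hi₀⟩, hdeg, hB⟩
  rw [Set.mem_pi]
  intro i _
  exact ⟨hdeg i, (ah_le_absLogHeight y (fun j => isIntegral_Qb _) i₀ hi₀ i).trans hB⟩

end Fermat.Agent.S17.H50
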