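import Fermat.Agent.S17.H617.HWallDefs
import Fermat.Agent.Lib.RR.H439.Pencil

/-!
# S17 / tower H (helper50): basic geometry of an embedding datum

For `E : HWall.EmbData K F` (complete linear system `|m∞|`, `m ≥ 2g + 1`):

* `exists_lin_eq` : every element of `L(m∞)` is a linear form in the basis;
* `exists_Z_eq_zero` : no base points;  `pt_ne_zero` : `E.pt P ≠ 0`;
* `exists_Z_pos_Z_eq_zero` : the embedding separates points;
* `wedge_ne_zero_of_dot`, `wedge_pt_ne_zero`, `wedge_pt_pt_ne_zero_of_dot`,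
  `dot_tn_ne_zero`, `wedge_pt_tn_ne_zero` : the Plücker vectors occurring in the local wall
  and in the contract are nonzero.
-/

set_option autoImplicit false

noncomputable section

open AlgebraicCurve

namespace Fermat.Agent.S17.H50.Emb

open Fermat.Agent.Lib.RR Fermat.Agent.S17.HWall

variable {K F : Type*} [Field K] [Field F] [Algebra K F]

/-- if `⟨a, y⟩ = 0 ≠ ⟨a, z⟩` and `y ≠ 0` then `y ∧ z ≠ 0` -/
theorem wedge_ne_zero_of_dot {n : ℕ} (a y z : Fin n → K) (hy : y ≠ 0) (h1 : dot a y = 0)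
    (h2 : dot a z ≠ 0) : wedge y z ≠ 0 := by
  intro hw
  apply hy
  funext j
  have hij : ∀ i, y i * z j = y j * z i := by
    intro i
    have := congrFun hw (i, j)
    simp only [wedge, Pi.zero_apply] at this
    linear_combination this
  have h3 : dot a y * z j = y j * dot a z := by
    simp only [dot, dotProduct, Finset.sum_mul, Finset.mul_sum]
    refine Finset.sum_congr rfl fun i _ => ?_
    have := hij i
    linear_combination a i * this
  rw [h1, zero_mul] at h3
  rcases mul_eq_zero.1 h3.symm with h | h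
  · simpa using h
  · exact absurd h h2

variable [FF1 K F]

theorem two_genus_le (E : EmbData K F) :
    2 * (genusFF K F : ℤ) ≤ Divisor.degree (E.m • prim E.vinf) - 1 := by
  rw [genusFF_eq_genusR, map_nsmul, degree_prim']
  have := E.hm
  simp only [nsmul_eq_mul, mul_one]
  omega

/-- every element of `L(m∞)` is a linear form in the basis -/
theorem exists_lin_eq (E : EmbData K F) {f : F}
    (hf : f ∈ riemannRochSpace (E.m • prim E.vinf)) :
    ∃ a : Fin (E.r + 1) → K, lin E.x a = f := by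
  rw [← E.x_span] at hf
  obtain ⟨a, ha⟩ := (Submodule.mem_span_range_iff_exists_fun K (v := E.x) (x := f)).1 hf
  exact ⟨a, ha⟩

/-- **no base points** -/
theorem exists_Z_eq_zero (E : EmbData K F) (P : Place K F) : ∃ a, a ≠ 0 ∧ E.Z a P = 0 := by
  have hdeg : 2 * (genusFF K F : ℤ) ≤ Divisor.degree (E.m • prim E.vinf) := by
    have := two_genus_le E
    omega
  obtain ⟨f, hf, hf0, hord⟩ := H439.exists_mem_L_ord_eq hdeg P
  obtain ⟨a, rfl⟩ := exists_lin_eq E hf
  have ha : a ≠ 0 := by
    rintro rfl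
    apply hf0
    simp [lin]
  refine ⟨a, ha, ?_⟩
  rw [E.Z_apply ha, hord]
  ring

/-- the representatives of the points are nonzero -/
theorem pt_ne_zero (E : EmbData K F) (P : Place K F) : E.pt P ≠ 0 := by
  obtain ⟨a, ha, hZ⟩ := exists_Z_eq_zero E P
  intro h0
  have h1 : dot a (E.pt P) = 0 := by
    rw [h0]
    simp [dot]
  have h2 := (E.pt_spec P a ha).1 h1
  change 0 < E.Z a P at h2
  omega

/-- **the embedding separates points** -/
theorem exists_Z_pos_Z_eq_zero (E : EmbData K F) {A P : Place K F} (hAP : A ≠ P) :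
    ∃ a, a ≠ 0 ∧ 0 < E.Z a A ∧ E.Z a P = 0 := by
  have hdeg : 2 * (genusFF K F : ℤ) ≤ Divisor.degree (E.m • prim E.vinf - prim A) := by
    have := two_genus_le E
    rw [map_sub, degree_prim']
    omega
  obtain ⟨f, hf, hf0, hord⟩ := H439.exists_mem_L_ord_eq hdeg P
  have hfD : f ∈ riemannRochSpace (E.m • prim E.vinf) :=
    L_mono (H439.sub_prim_le _ A) hf
  obtain ⟨a, rfl⟩ := exists_lin_eq E hfD
  have ha : a ≠ 0 := by
    rintro rfl
    apply hf0
    simp [lin]
  refine ⟨a, ha, ?_, ?_⟩
  · rw [E.Z_apply ha]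
    have := (mem_riemannRochSpace_iff.mp hf A).resolve_left hf0
    simp only [Finsupp.coe_sub, Pi.sub_apply, prim_apply_self] at this
    omega
  · rw [E.Z_apply ha, hord]
    simp only [Finsupp.coe_sub, Pi.sub_apply, prim_apply_of_ne hAP.symm]
    ring

/-- distinct places have non-proportional representatives -/
theorem wedge_pt_ne_zero (E : EmbData K F) {A P : Place K F} (hAP : A ≠ P) :
    wedge (E.pt A) (E.pt P) ≠ 0 := by
  obtain ⟨a, ha, hA, hP⟩ := exists_Z_pos_Z_eq_zero E hAP
  refine wedge_ne_zero_of_dot a _ _ (pt_ne_zero E A) ((E.pt_spec A a ha).2 hA) ?_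
  intro h0
  have := (E.pt_spec P a ha).1 h0
  change 0 < E.Z a P at this
  omega

/-- a point of `Z_a` and a point off `Z_a` have non-proportional representatives -/
theorem wedge_pt_pt_ne_zero_of_dot (E : EmbData K F) {a : Fin (E.r + 1) → K} (ha : a ≠ 0)
    {A P : Place K F} (hA : 0 < E.Z a A) (hP : dot a (E.pt P) ≠ 0) :
    wedge (E.pt A) (E.pt P) ≠ 0 :=
  wedge_ne_zero_of_dot a _ _ (pt_ne_zero E A) ((E.pt_spec A a ha).2 hA) hP

/-- at a simple zero of `a` the form `a` does not vanish on the tangent vector -/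
theorem dot_tn_ne_zero (E : EmbData K F) {a : Fin (E.r + 1) → K} (ha : a ≠ 0)
    {P : Place K F} (hP : E.Z a P = 1) : dot a (E.pt P) = 0 ∧ dot a (E.tn P) ≠ 0 := by
  have h1 : dot a (E.pt P) = 0 := (E.pt_spec P a ha).2 (by change 0 < E.Z a P; omega)
  refine ⟨h1, fun h2 => ?_⟩
  have := (E.tn_spec P a ha).1 ⟨h1, h2⟩
  change 2 ≤ E.Z a P at this
  omega

/-- the tangent Plücker vector at a simple zero of some form is nonzero -/
theorem wedge_pt_tn_ne_zero (E : EmbData K F) {a : Fin (E.r + 1) → K} (ha : a ≠ 0)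
    {P : Place K F} (hP : E.Z a P = 1) : wedge (E.pt P) (E.tn P) ≠ 0 := by
  obtain ⟨h1, h2⟩ := dot_tn_ne_zero E ha hP
  exact wedge_ne_zero_of_dot a _ _ (pt_ne_zero E P) h1 h2

end Fermat.Agent.S17.H50.Emb
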